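/-
GATE-J27 (S27) / node A3 = GJ27-RRDUAL, file 1 (helper90): **Weil differentials** on the Prelude's
repartition ring.

`𝔸 = repartitions K F`, `𝔸(D) = repartitionsOf D`, `F ⊂ 𝔸` the principal repartitions.
* `Om D` : the `K`-space of Weil differentials vanishing on `𝔸(D) + F`
  (`= (𝔸(D) ⊔ F).dualAnnihilator ⊆ Module.Dual K 𝔸`); `finrank_Om : dim Ω(D) = h¹(D)`;
* `fsmul x ω` : the `F`-action `(x ω)(α) = ω(x α)`; `fsmul_mem_Om : ω ∈ Ω(D) → x ω ∈ Ω(D + (x))`.
-/
import Mathlib
import Fermat.Agent.RR.Final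

set_option autoImplicit false

noncomputable section

open AlgebraicCurve

namespace Fermat.Agent.GJ27.RRDual

open Fermat.Agent.RRh45 Fermat.Agent.RR

variable {K F : Type*} [Field K] [Field F] [Algebra K F]

/-! ### the space `Ω(D)` -/

/-- **Weil differentials vanishing on `𝔸(D) + F`.** -/
def Om (D : Divisor K F) : Submodule K (Module.Dual K ↥(repartitions K F)) :=
  (repartitionsOf D ⊔ principalRepartitions K F).dualAnnihilator

theorem mem_Om_iff {D : Divisor K F} {ω : Module.Dual K ↥(repartitions K F)} :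
    ω ∈ Om D ↔ (∀ α ∈ repartitionsOf D, ω α = 0) ∧ ∀ f : F, ω (Adelic.diag f) = 0 := by
  unfold Om
  rw [Submodule.mem_dualAnnihilator]
  constructor
  · intro h
    refine ⟨fun α hα => h α (Submodule.mem_sup_left hα), fun f => h _ (Submodule.mem_sup_right ?_)⟩
    rw [Adelic.principalRepartitions_eq_range]
    exact ⟨f, rfl⟩
  · rintro ⟨h1, h2⟩ α hα
    obtain ⟨β, hβ, γ, hγ, rfl⟩ := Submodule.mem_sup.mp hα
    rw [Adelic.principalRepartitions_eq_range] at hγ
    obtain ⟨f, rfl⟩ := hγ
    rw [map_add, h1 β hβ, h2 f, add_zero]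

theorem Om_anti {D' D : Divisor K F} (h : D' ≤ D) : Om D ≤ Om D' := by
  intro ω hω
  rw [mem_Om_iff] at hω ⊢
  exact ⟨fun α hα => hω.1 α (repartitionsOf_mono h hα), hω.2⟩

/-- `dim_K Ω(D) = h¹(D)`. -/
theorem finrank_Om (D : Divisor K F) :
    Module.finrank K (Om D) = Module.finrank K (H1 D) := by
  unfold Om
  rw [← (Submodule.dualQuotEquivDualAnnihilator
    (repartitionsOf D ⊔ principalRepartitions K F)).finrank_eq]
  exact Subspace.dual_finrank_eq

/-! ### the action of `F` -/

/-- multiplication by `x ∈ F` on the repartitions, as a `K`-linear map -/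
def mulF (x : F) : ↥(repartitions K F) →ₗ[K] ↥(repartitions K F) where
  toFun α := x • α
  map_add' α β := smul_add x α β
  map_smul' c α := smul_comm x c α

@[simp] theorem mulF_apply (x : F) (α : ↥(repartitions K F)) : mulF (K := K) x α = x • α := rfl

theorem coe_mulF (x : F) (α : ↥(repartitions K F)) (v : Place K F) :
    ((mulF (K := K) x α : ↥(repartitions K F)) : Place K F → F) v =
      x * (α : Place K F → F) v := rfl

/-- the action of `F` on the differentials: `(x ω)(α) = ω(x α)` -/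
def fsmul (x : F) (ω : Module.Dual K ↥(repartitions K F)) : Module.Dual K ↥(repartitions K F) :=
  ω.comp (mulF x)

@[simp] theorem fsmul_apply (x : F) (ω : Module.Dual K ↥(repartitions K F))
    (α : ↥(repartitions K F)) : fsmul x ω α = ω (x • α) := rfl

theorem fsmul_one (ω : Module.Dual K ↥(repartitions K F)) : fsmul 1 ω = ω := by
  ext α; simp

theorem fsmul_zero_left (ω : Module.Dual K ↥(repartitions K F)) : fsmul 0 ω = 0 := by
  ext α; simp

theorem fsmul_zero_right (x : F) : fsmul x (0 : Module.Dual K ↥(repartitions K F)) = 0 := by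
  ext α; simp

theorem fsmul_fsmul (x y : F) (ω : Module.Dual K ↥(repartitions K F)) :
    fsmul x (fsmul y ω) = fsmul (x * y) ω := by
  ext α
  rw [fsmul_apply, fsmul_apply, fsmul_apply, smul_smul, mul_comm]

theorem fsmul_add_left (x y : F) (ω : Module.Dual K ↥(repartitions K F)) :
    fsmul (x + y) ω = fsmul x ω + fsmul y ω := by
  ext α
  rw [LinearMap.add_apply, fsmul_apply, fsmul_apply, fsmul_apply, add_smul, map_add]

theorem fsmul_add_right (x : F) (ω ω' : Module.Dual K ↥(repartitions K F)) :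
    fsmul x (ω + ω') = fsmul x ω + fsmul x ω' := by
  ext α
  simp

theorem fsmul_smul_left (c : K) (x : F) (ω : Module.Dual K ↥(repartitions K F)) :
    fsmul (c • x) ω = c • fsmul x ω := by
  ext α
  rw [LinearMap.smul_apply, fsmul_apply, fsmul_apply, smul_assoc, map_smul]

theorem fsmul_smul_right (c : K) (x : F) (ω : Module.Dual K ↥(repartitions K F)) :
    fsmul x (c • ω) = c • fsmul x ω := by
  ext α
  simp

theorem fsmul_inv_cancel {x : F} (hx : x ≠ 0) (ω : Module.Dual K ↥(repartitions K F)) :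
    fsmul x⁻¹ (fsmul x ω) = ω := by
  rw [fsmul_fsmul, inv_mul_cancel₀ hx, fsmul_one]

theorem fsmul_eq_zero_iff {x : F} (hx : x ≠ 0) {ω : Module.Dual K ↥(repartitions K F)} :
    fsmul x ω = 0 ↔ ω = 0 := by
  constructor
  · intro h
    rw [← fsmul_inv_cancel hx ω, h, fsmul_zero_right]
  · rintro rfl
    exact fsmul_zero_right x

theorem smul_diag (x f : F) :
    x • (Adelic.diag (K := K) f : ↥(repartitions K F)) = Adelic.diag (x * f) := by
  apply Subtype.ext
  funext v
  show x * ((Adelic.diag (K := K) f : ↥(repartitions K F)) : Place K F → F) v = _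
  rw [Adelic.diag_apply, Adelic.diag_apply]

/-- `ω ∈ Ω(D) ⟹ x ω ∈ Ω(D + (x))`. -/
theorem fsmul_mem_Om {D : Divisor K F} {ω : Module.Dual K ↥(repartitions K F)} (hω : ω ∈ Om D)
    {x : F} (hx : x ≠ 0) {Dx : Divisor K F} (hDx : ∀ v : Place K F, Dx v = v.ord x) :
    fsmul x ω ∈ Om (D + Dx) := by
  rw [mem_Om_iff] at hω ⊢
  refine ⟨fun α hα => ?_, fun f => ?_⟩
  · rw [fsmul_apply]
    apply hω.1
    rw [mem_repartitionsOf_iff] at hα ⊢
    intro v
    show x * (α : Place K F → F) v = 0 ∨ -D v ≤ v.ord (x * (α : Place K F → F) v)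
    rcases hα v with h0 | h1
    · left; rw [h0, mul_zero]
    · by_cases h0 : (α : Place K F → F) v = 0
      · left; rw [h0, mul_zero]
      · right
        rw [v.ord_mul hx h0, ← hDx v]
        rw [Finsupp.add_apply] at h1
        omega
  · rw [fsmul_apply, smul_diag]
    exact hω.2 _

end Fermat.Agent.GJ27.RRDual
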