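/-
GATE-J27 (S27) / node A3 = GJ27-RRDUAL, file 2 (helper90): **the divisor of a Weil differential**.

For `ω ≠ 0` lying in some `Ω(D₀)` there is a unique divisor `W = (ω)` with
`ω ∈ Ω(D) ↔ D ≤ W` (`IsCan ω W`), and `(x ω) = (x) + (ω)`.
-/
import Mathlib
import Fermat.Agent.GJ27.RRDual.Weil

set_option autoImplicit false

noncomputable section

open AlgebraicCurve

namespace Fermat.Agent.GJ27.RRDual

open Fermat.Agent.RRh45 Fermat.Agent.RR

variable {K F : Type*} [Field K] [Field F] [Algebra K F]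

/-- `W` is the divisor of the differential `ω`. -/
def IsCan (ω : Module.Dual K ↥(repartitions K F)) (W : Divisor K F) : Prop :=
  ω ∈ Om W ∧ ∀ D : Divisor K F, ω ∈ Om D → D ≤ W

theorem IsCan.mem_Om_iff {ω : Module.Dual K ↥(repartitions K F)} {W : Divisor K F}
    (h : IsCan ω W) {D : Divisor K F} : ω ∈ Om D ↔ D ≤ W :=
  ⟨h.2 D, fun hD => Om_anti hD h.1⟩

theorem IsCan.unique {ω : Module.Dual K ↥(repartitions K F)} {W W' : Divisor K F}
    (h : IsCan ω W) (h' : IsCan ω W') : W = W' :=
  le_antisymm (h'.2 W h.1) (h.2 W' h'.1)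

/-- `(x ω) = (x) + (ω)`. -/
theorem IsCan.fsmul {ω : Module.Dual K ↥(repartitions K F)} {W : Divisor K F} (h : IsCan ω W)
    {x : F} (hx : x ≠ 0) {Dx : Divisor K F} (hDx : ∀ v : Place K F, Dx v = v.ord x) :
    IsCan (fsmul x ω) (W + Dx) := by
  refine ⟨fsmul_mem_Om h.1 hx hDx, fun D hD => ?_⟩
  have hinv : ∀ v : Place K F, (-Dx) v = v.ord x⁻¹ := fun v => by
    rw [Finsupp.neg_apply, hDx v, v.ord_inv]
  have h1 := fsmul_mem_Om hD (inv_ne_zero hx) hinv
  rw [fsmul_inv_cancel hx] at h1
  have h2 := h.2 _ h1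
  rw [Finsupp.le_def] at h2 ⊢
  intro v
  have := h2 v
  rw [Finsupp.add_apply, Finsupp.neg_apply] at this
  rw [Finsupp.add_apply]
  omega

section Curve

variable [FiniteResidues K F] [HasPrincipalDivisors K F] [Nonempty (Place K F)]

/-- the degrees of the divisors `D` with `Ω(D) ≠ 0` are bounded (Riemann's theorem). -/
theorem exists_degree_lt_of_mem_Om : ∃ c : ℤ, ∀ (D : Divisor K F)
    (ω : Module.Dual K ↥(repartitions K F)), ω ∈ Om D → ω ≠ 0 → Divisor.degree D < c := by
  obtain ⟨c, hc⟩ := exists_ell_eq K F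
  refine ⟨c, fun D ω hω hω0 => ?_⟩
  by_contra hge
  push Not at hge
  have hsub := (hc D hge).2
  have htop : repartitionsOf D ⊔ principalRepartitions K F = ⊤ :=
    Submodule.Quotient.subsingleton_iff.mp hsub
  apply hω0
  ext α
  unfold Om at hω
  rw [htop] at hω
  exact (Submodule.mem_dualAnnihilator ω).mp hω α Submodule.mem_top

/-- **the divisor of a nonzero Weil differential exists.** -/
theorem exists_isCan {ω : Module.Dual K ↥(repartitions K F)} (hω : ω ≠ 0) {D₀ : Divisor K F}
    (h₀ : ω ∈ Om D₀) : ∃ W : Divisor K F, IsCan ω W := by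
  obtain ⟨c, hc⟩ := exists_degree_lt_of_mem_Om (K := K) (F := F)
  obtain ⟨ub, ⟨W, hW, hWdeg⟩, hub⟩ :=
    Int.exists_greatest_of_bdd (P := fun z => ∃ D : Divisor K F, ω ∈ Om D ∧ Divisor.degree D = z)
      ⟨c, fun z ⟨D, hD, hz⟩ => hz ▸ (hc D ω hD hω).le⟩ ⟨_, D₀, h₀, rfl⟩
  refine ⟨W, hW, fun D hD => ?_⟩
  by_contra hle
  rw [Finsupp.le_def] at hle
  push Not at hle
  obtain ⟨Q, hQ⟩ := hle
  -- ω vanishes on 𝔸(W + Q)
  have hmem : ω ∈ Om (W + Finsupp.single Q 1) := by
    rw [mem_Om_iff] at hW hD ⊢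
    refine ⟨fun α hα => ?_, hW.2⟩
    rw [mem_repartitionsOf_iff] at hα
    have hdec : α = (α - Adelic.sgl Q ((α : Place K F → F) Q)) +
        Adelic.sgl Q ((α : Place K F → F) Q) := by abel
    rw [hdec, map_add]
    have h1 : ω (α - Adelic.sgl Q ((α : Place K F → F) Q)) = 0 := by
      apply hW.1
      rw [mem_repartitionsOf_iff]
      intro v
      show (α : Place K F → F) v -
        ((Adelic.sgl Q ((α : Place K F → F) Q) : ↥(repartitions K F)) : Place K F → F) v = 0 ∨
        -W v ≤ v.ord ((α : Place K F → F) v -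
          ((Adelic.sgl Q ((α : Place K F → F) Q) : ↥(repartitions K F)) : Place K F → F) v)
      by_cases hv : v = Q
      · subst hv
        left
        rw [Adelic.sgl_apply_self, sub_self]
      · rw [Adelic.sgl_apply_of_ne hv, sub_zero]
        have := hα v
        rwa [Finsupp.add_apply, Finsupp.single_eq_of_ne hv, add_zero] at this
    have h2 : ω (Adelic.sgl Q ((α : Place K F → F) Q)) = 0 := by
      apply hD.1
      rw [mem_repartitionsOf_iff]
      intro v
      by_cases hv : v = Q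
      · subst hv
        rw [Adelic.sgl_apply_self]
        rcases hα v with h0 | h1
        · exact Or.inl h0
        · right
          rw [Finsupp.add_apply, Finsupp.single_eq_same] at h1
          omega
      · left
        exact Adelic.sgl_apply_of_ne hv _
    rw [h1, h2, add_zero]
  have hdeg : Divisor.degree (W + Finsupp.single Q 1) = ub + Q.deg := by
    rw [map_add, Divisor.degree_single, hWdeg]; simp
  have := hub _ ⟨_, hmem, hdeg⟩
  have hpos : 0 < Q.deg := deg_pos Q
  omega

end Curve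

end Fermat.Agent.GJ27.RRDual
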