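/-
GATE-J27 (S27) / node A3 = GJ27-RRDUAL, file 3 (helper90): **the Weil differentials form a
one-dimensional `F`-space** (Stichtenoth 1.5.9), in the form: for `ω₁ ≠ 0` and any `ω₂` there is
`z ∈ F` with `ω₂ = z ω₁`.  Hypothesis: `ℓ(0) = 1` (`K` is the full constant field).

* `fsmulL ω : F →ₗ[K] Ω`, `x ↦ x ω`, injective for `ω ≠ 0`; it maps `L(D - E)` into `Ω(E)` for
  `ω ∈ Ω(D)` (`map_fsmulL_le`);
* `exists_fsmul_eq` : the dimension count `ℓ(D₁ + B) + ℓ(D₂ + B) > i(-B)` for `deg B ≫ 0`.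
-/
import Mathlib
import Fermat.Agent.GJ27.RRDual.Canonical

set_option autoImplicit false

noncomputable section

open AlgebraicCurve

namespace Fermat.Agent.GJ27.RRDual

open Fermat.Agent.RRh45 Fermat.Agent.RR

variable {K F : Type*} [Field K] [Field F] [Algebra K F]

section Phi

variable [HasPrincipalDivisors K F]

theorem fsmul_mem_Om_of_mem {D : Divisor K F} {ω : Module.Dual K ↥(repartitions K F)}
    (hω : ω ∈ Om D) (E : Divisor K F) {x : F} (hx : x ∈ riemannRochSpace (D - E)) :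
    fsmul x ω ∈ Om E := by
  by_cases hx0 : x = 0
  · rw [hx0, fsmul_zero_left]; exact Submodule.zero_mem _
  obtain ⟨Dx, hDx, -⟩ := HasPrincipalDivisors.exists_divisor (K := K) x hx0
  refine Om_anti ?_ (fsmul_mem_Om hω hx0 hDx)
  rw [Finsupp.le_def]
  intro v
  have := (mem_riemannRochSpace_iff.mp hx v).resolve_left hx0
  rw [Finsupp.sub_apply] at this
  rw [Finsupp.add_apply, hDx v]
  omega

/-- `x ↦ x ω` as a `K`-linear map `F → Ω`. -/
def fsmulL (ω : Module.Dual K ↥(repartitions K F)) :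
    F →ₗ[K] Module.Dual K ↥(repartitions K F) where
  toFun x := fsmul x ω
  map_add' x y := fsmul_add_left x y ω
  map_smul' c x := fsmul_smul_left c x ω

@[simp] theorem fsmulL_apply (ω : Module.Dual K ↥(repartitions K F)) (x : F) :
    fsmulL ω x = fsmul x ω := rfl

theorem fsmulL_injective {ω : Module.Dual K ↥(repartitions K F)} (hne : ω ≠ 0) :
    Function.Injective (fsmulL ω) := by
  refine (injective_iff_map_eq_zero (fsmulL ω)).mpr fun x hx => ?_
  rw [fsmulL_apply] at hx
  by_contra hx0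
  exact hne ((fsmul_eq_zero_iff hx0).mp hx)

/-- the image of `L(D - E)` under `x ↦ x ω` lies in `Ω(E)` for `ω ∈ Ω(D)`. -/
theorem map_fsmulL_le {D : Divisor K F} {ω : Module.Dual K ↥(repartitions K F)} (hω : ω ∈ Om D)
    (E : Divisor K F) : (riemannRochSpace (D - E)).map (fsmulL ω) ≤ Om E := by
  rintro _ ⟨x, hx, rfl⟩
  exact fsmul_mem_Om_of_mem hω E hx

theorem finrank_map_fsmulL {ω : Module.Dual K ↥(repartitions K F)} (hne : ω ≠ 0)
    (E : Divisor K F) :
    Module.finrank K ((riemannRochSpace E).map (fsmulL ω)) =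
      Module.finrank K (riemannRochSpace E) :=
  (Submodule.equivMapOfInjective (fsmulL ω) (fsmulL_injective hne) (riemannRochSpace E)).finrank_eq.symm

end Phi

section Curve

variable [FiniteResidues K F] [HasPrincipalDivisors K F] [Nonempty (Place K F)]

instance finiteDimensional_Om (D : Divisor K F) : FiniteDimensional K (Om D) := by
  unfold Om
  exact Module.Finite.equiv
    (Submodule.dualQuotEquivDualAnnihilator (repartitionsOf D ⊔ principalRepartitions K F))

/-- `i(D) = ℓ(D) - deg D - 1 + g` when `ℓ(0) = 1`. -/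
theorem finrank_Om_eq (h0 : Module.finrank K (riemannRochSpace (0 : Divisor K F)) = 1)
    (D : Divisor K F) :
    (Module.finrank K (Om D) : ℤ) =
      Module.finrank K (riemannRochSpace D) - Divisor.degree D - 1 + genusFF K F := by
  have h := ell_sub_h1 D
  rw [h0] at h
  rw [finrank_Om]
  push_cast at h
  linarith

/-- **the differentials form a one-dimensional `F`-space.** -/
theorem exists_fsmul_eq (h0 : Module.finrank K (riemannRochSpace (0 : Divisor K F)) = 1)
    {ω₁ ω₂ : Module.Dual K ↥(repartitions K F)} {D₁ D₂ : Divisor K F} (h₁ : ω₁ ∈ Om D₁)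
    (h₂ : ω₂ ∈ Om D₂) (hne : ω₁ ≠ 0) : ∃ z : F, ω₂ = fsmul z ω₁ := by
  by_cases hne2 : ω₂ = 0
  · exact ⟨0, by rw [hne2, fsmul_zero_left]⟩
  obtain ⟨c, hc⟩ := exists_ell_eq K F
  obtain ⟨P⟩ := ‹Nonempty (Place K F)›
  have hPdeg : (1 : ℤ) ≤ P.deg := by exact_mod_cast deg_pos P
  -- a large multiple of `P`
  obtain ⟨m, hm⟩ : ∃ m : ℤ, m = |c| + |Divisor.degree D₁| + |Divisor.degree D₂| +
      3 * (genusFF K F : ℤ) + 3 := ⟨_, rfl⟩
  have hm0 : 0 ≤ m := by rw [hm]; positivity
  obtain ⟨B, hB⟩ : ∃ B : Divisor K F, B = Finsupp.single P m := ⟨_, rfl⟩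
  have hdegB : Divisor.degree B = m * P.deg := by rw [hB, Divisor.degree_single]
  have hdegB' : m ≤ Divisor.degree B := by rw [hdegB]; nlinarith
  have hc1 := le_abs_self c
  have hd1 := neg_abs_le (Divisor.degree D₁)
  have hd2 := neg_abs_le (Divisor.degree D₂)
  have hd1' := le_abs_self (Divisor.degree D₁)
  have hd2' := le_abs_self (Divisor.degree D₂)
  have hg0 : (0 : ℤ) ≤ genusFF K F := Int.natCast_nonneg _
  have ha0 := abs_nonneg c
  have ha1 := abs_nonneg (Divisor.degree D₁)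
  have ha2 := abs_nonneg (Divisor.degree D₂)
  -- the dimensions
  have hl1 : (Module.finrank K (riemannRochSpace (D₁ - -B)) : ℤ) =
      Divisor.degree D₁ + Divisor.degree B + 1 - genusFF K F := by
    have := (hc (D₁ - -B) (by rw [map_sub, map_neg]; linarith)).1
    rw [h0, map_sub, map_neg] at this
    push_cast at this
    linarith
  have hl2 : (Module.finrank K (riemannRochSpace (D₂ - -B)) : ℤ) =
      Divisor.degree D₂ + Divisor.degree B + 1 - genusFF K F := by
    have := (hc (D₂ - -B) (by rw [map_sub, map_neg]; linarith)).1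
    rw [h0, map_sub, map_neg] at this
    push_cast at this
    linarith
  have hlB : Module.finrank K (riemannRochSpace (-B)) = 0 := by
    rw [riemannRochSpace_eq_bot_of_degree_neg (by rw [map_neg]; linarith)]
    exact finrank_bot K F
  have hOm : (Module.finrank K (Om (-B)) : ℤ) = Divisor.degree B - 1 + genusFF K F := by
    rw [finrank_Om_eq h0, hlB, map_neg]
    push_cast
    ring
  -- the two images
  obtain ⟨T₁, hT₁⟩ : ∃ T₁ : Submodule K (Module.Dual K ↥(repartitions K F)),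
      T₁ = (riemannRochSpace (D₁ - -B)).map (fsmulL ω₁) := ⟨_, rfl⟩
  obtain ⟨T₂, hT₂⟩ : ∃ T₂ : Submodule K (Module.Dual K ↥(repartitions K F)),
      T₂ = (riemannRochSpace (D₂ - -B)).map (fsmulL ω₂) := ⟨_, rfl⟩
  have hr1 : Module.finrank K T₁ = Module.finrank K (riemannRochSpace (D₁ - -B)) := by
    rw [hT₁]; exact finrank_map_fsmulL hne _
  have hr2 : Module.finrank K T₂ = Module.finrank K (riemannRochSpace (D₂ - -B)) := by
    rw [hT₂]; exact finrank_map_fsmulL hne2 _
  have hT₁le : T₁ ≤ Om (-B) := by rw [hT₁]; exact map_fsmulL_le h₁ (-B)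
  have hT₂le : T₂ ≤ Om (-B) := by rw [hT₂]; exact map_fsmulL_le h₂ (-B)
  haveI : FiniteDimensional K T₁ := by
    rw [hT₁]; infer_instance
  haveI : FiniteDimensional K T₂ := by
    rw [hT₂]; infer_instance
  have hsum := Submodule.finrank_sup_add_finrank_inf_eq T₁ T₂
  have hle : Module.finrank K ↥(T₁ ⊔ T₂) ≤ Module.finrank K (Om (-B)) :=
    Submodule.finrank_mono (sup_le hT₁le hT₂le)
  have hpos : 0 < Module.finrank K ↥(T₁ ⊓ T₂) := by
    have e1 : (Module.finrank K ↥(T₁ ⊔ T₂) : ℤ) + Module.finrank K ↥(T₁ ⊓ T₂)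
        = Module.finrank K (riemannRochSpace (D₁ - -B)) +
          Module.finrank K (riemannRochSpace (D₂ - -B)) := by
      rw [← hr1, ← hr2]; exact_mod_cast hsum
    have e2 : (Module.finrank K ↥(T₁ ⊔ T₂) : ℤ) ≤ Module.finrank K (Om (-B)) := by
      exact_mod_cast hle
    have : (0 : ℤ) < Module.finrank K ↥(T₁ ⊓ T₂) := by
      rw [hl1, hl2] at e1
      rw [hOm] at e2
      linarith
    exact_mod_cast this
  have hnebot : T₁ ⊓ T₂ ≠ ⊥ := by
    intro h
    rw [h, finrank_bot] at hpos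
    exact lt_irrefl _ hpos
  obtain ⟨η, hηmem, hηne⟩ := Submodule.exists_mem_ne_zero_of_ne_bot hnebot
  have hη := Submodule.mem_inf.mp hηmem
  rw [hT₁, hT₂] at hη
  obtain ⟨⟨x₁, -, e1⟩, ⟨x₂, -, e2⟩⟩ := hη
  rw [fsmulL_apply] at e1 e2
  have hx₂0 : x₂ ≠ 0 := by
    intro h
    apply hηne
    rw [← e2, h, fsmul_zero_left]
  refine ⟨x₂⁻¹ * x₁, ?_⟩
  rw [← fsmul_fsmul, e1, ← e2, fsmul_inv_cancel hx₂0]

end Curve

end Fermat.Agent.GJ27.RRDual
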