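/-
GATE-J27 (S27) / node A3 = GJ27-RRDUAL, file 4 (helper90): **the duality theorem and the full
Riemann–Roch theorem** in the Prelude's vocabulary (`H1`, `genusFF`, `riemannRochSpace`), for any
field `K` with `ℓ(0) = 1`.

* `exists_ne_zero_mem_Om` : a nonzero Weil differential exists;
* `map_fsmulL_eq` : for `W = (ω)`, `x ↦ x ω` maps `L(W - D)` ONTO `Ω(D)`;
* `exists_canonical` : `∃ W, ∀ D, h¹(D) = ℓ(W - D)`;
* `IsCanonical W` + `riemann_roch`, `degree_canonical`, `finrank_canonical`,
  `finrank_eq_of_le_degree` (`2g - 1 ≤ deg D → ℓ(D) = deg D + 1 - g`),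
  `finrank_of_degree_eq` (`deg D = 2g - 2`).
-/
import Mathlib
import Fermat.Agent.GJ27.RRDual.DimOne
import Fermat.Agent.GJ.S37.MinDiv

set_option autoImplicit false
set_option linter.unusedSectionVars false

noncomputable section

open AlgebraicCurve

namespace Fermat.Agent.GJ27.RRDual

open Fermat.Agent.RRh45 Fermat.Agent.RR

variable {K F : Type*} [Field K] [Field F] [Algebra K F]
variable [FiniteResidues K F] [HasPrincipalDivisors K F] [Nonempty (Place K F)]

/-- a nonzero Weil differential exists. -/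
theorem exists_ne_zero_mem_Om (h0 : Module.finrank K (riemannRochSpace (0 : Divisor K F)) = 1) :
    ∃ (D : Divisor K F) (ω : Module.Dual K ↥(repartitions K F)), ω ∈ Om D ∧ ω ≠ 0 := by
  obtain ⟨P⟩ := ‹Nonempty (Place K F)›
  have hPdeg : (1 : ℤ) ≤ P.deg := by exact_mod_cast deg_pos P
  obtain ⟨D, hD⟩ : ∃ D : Divisor K F, D = Finsupp.single P (-2) := ⟨_, rfl⟩
  have hdeg : Divisor.degree D = -2 * P.deg := by rw [hD, Divisor.degree_single]
  have hl : Module.finrank K (riemannRochSpace D) = 0 := by
    rw [riemannRochSpace_eq_bot_of_degree_neg (by rw [hdeg]; linarith)]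
    exact finrank_bot K F
  have hOm : (0 : ℤ) < Module.finrank K (Om D) := by
    rw [finrank_Om_eq h0, hl, hdeg]
    have : (0 : ℤ) ≤ genusFF K F := Int.natCast_nonneg _
    push_cast
    linarith
  have hne : Om D ≠ ⊥ := by
    intro h
    rw [h, finrank_bot] at hOm
    exact lt_irrefl _ hOm
  obtain ⟨ω, hω, hω0⟩ := Submodule.exists_mem_ne_zero_of_ne_bot hne
  exact ⟨D, ω, hω, hω0⟩

/-- **duality**: for `W = (ω)`, multiplication `x ↦ x ω` maps `L(W - D)` onto `Ω(D)`. -/
theorem map_fsmulL_eq (h0 : Module.finrank K (riemannRochSpace (0 : Divisor K F)) = 1)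
    {ω : Module.Dual K ↥(repartitions K F)} (hω : ω ≠ 0) {W : Divisor K F} (hW : IsCan ω W)
    (D : Divisor K F) : (riemannRochSpace (W - D)).map (fsmulL ω) = Om D := by
  refine le_antisymm (map_fsmulL_le hW.1 D) fun η hη => ?_
  obtain ⟨z, rfl⟩ := exists_fsmul_eq h0 hW.1 hη hω
  refine ⟨z, ?_, rfl⟩
  show z ∈ riemannRochSpace (W - D)
  by_cases hz : z = 0
  · rw [hz]; exact Submodule.zero_mem _
  obtain ⟨Dz, hDz, -⟩ := HasPrincipalDivisors.exists_divisor (K := K) z hz
  have hle := (hW.fsmul hz hDz).mem_Om_iff.mp hη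
  rw [mem_riemannRochSpace_iff]
  intro v
  right
  have := Finsupp.le_def.mp hle v
  rw [Finsupp.add_apply, hDz v] at this
  rw [Finsupp.sub_apply]
  omega

/-- `W` is a **canonical divisor**: `h¹(D) = ℓ(W - D)` for every `D`. -/
def IsCanonical (W : Divisor K F) : Prop :=
  ∀ D : Divisor K F, Module.finrank K (H1 D) = Module.finrank K (riemannRochSpace (W - D))

/-- **a canonical divisor exists** (`ℓ(0) = 1`). -/
theorem exists_canonical (h0 : Module.finrank K (riemannRochSpace (0 : Divisor K F)) = 1) :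
    ∃ W : Divisor K F, IsCanonical W := by
  obtain ⟨D₀, ω, hω, hω0⟩ := exists_ne_zero_mem_Om (K := K) (F := F) h0
  obtain ⟨W, hW⟩ := exists_isCan hω0 hω
  refine ⟨W, fun D => ?_⟩
  rw [← finrank_Om, ← map_fsmulL_eq h0 hω0 hW D, finrank_map_fsmulL hω0]

section Corollaries

variable {W : Divisor K F}

/-- **Riemann–Roch**: `ℓ(D) = deg D + 1 - g + ℓ(W - D)`. -/
theorem riemann_roch (h0 : Module.finrank K (riemannRochSpace (0 : Divisor K F)) = 1)
    (hW : IsCanonical W) (D : Divisor K F) :
    (Module.finrank K (riemannRochSpace D) : ℤ) =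
      Divisor.degree D + 1 - genusFF K F + Module.finrank K (riemannRochSpace (W - D)) := by
  have h := ell_sub_h1 D
  rw [h0, hW D] at h
  push_cast at h
  linarith

/-- `ℓ(W) = g`. -/
theorem finrank_canonical (hW : IsCanonical W) :
    Module.finrank K (riemannRochSpace W) = genusFF K F := by
  have h := hW 0
  rw [sub_zero] at h
  rw [← h]
  rfl

/-- `deg W = 2g - 2`. -/
theorem degree_canonical (h0 : Module.finrank K (riemannRochSpace (0 : Divisor K F)) = 1)
    (hW : IsCanonical W) : Divisor.degree W = 2 * (genusFF K F : ℤ) - 2 := by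
  have h := riemann_roch h0 hW W
  rw [sub_self, h0, finrank_canonical hW] at h
  push_cast at h
  linarith

/-- `ℓ(D) = deg D + 1 - g` for `deg D ≥ 2g - 1`. -/
theorem finrank_eq_of_le_degree (h0 : Module.finrank K (riemannRochSpace (0 : Divisor K F)) = 1)
    {D : Divisor K F} (hD : 2 * (genusFF K F : ℤ) - 1 ≤ Divisor.degree D) :
    (Module.finrank K (riemannRochSpace D) : ℤ) = Divisor.degree D + 1 - genusFF K F := by
  obtain ⟨W, hW⟩ := exists_canonical (K := K) (F := F) h0
  have h := riemann_roch h0 hW D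
  have hneg : Divisor.degree (W - D) < 0 := by
    rw [map_sub, degree_canonical h0 hW]; linarith
  rw [riemannRochSpace_eq_bot_of_degree_neg hneg, finrank_bot] at h
  push_cast at h
  linarith

/-- `h¹(D) = 0` for `deg D ≥ 2g - 1`. -/
theorem finrank_H1_eq_zero_of_le_degree
    (h0 : Module.finrank K (riemannRochSpace (0 : Divisor K F)) = 1)
    {D : Divisor K F} (hD : 2 * (genusFF K F : ℤ) - 1 ≤ Divisor.degree D) :
    Module.finrank K (H1 D) = 0 := by
  obtain ⟨W, hW⟩ := exists_canonical (K := K) (F := F) h0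
  have hneg : Divisor.degree (W - D) < 0 := by
    rw [map_sub, degree_canonical h0 hW]; linarith
  rw [hW D, riemannRochSpace_eq_bot_of_degree_neg hneg, finrank_bot]

end Corollaries

/-! ### divisors of degree zero and of degree `2g - 2` -/

section DegreeZero

/-- `ℓ(D) = 1` for a principal divisor `D` (when `ℓ(0) = 1`). -/
theorem finrank_eq_one_of_isPrincipal
    (h0 : Module.finrank K (riemannRochSpace (0 : Divisor K F)) = 1) {D : Divisor K F}
    (hD : Divisor.IsPrincipal D) : Module.finrank K (riemannRochSpace D) = 1 := by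
  obtain ⟨z, hz, hDz⟩ := hD
  have h := ell_add_div (K := K) (D := (0 : Divisor K F)) hz hDz
  rw [zero_add] at h
  unfold ell at h
  rw [h, h0]

/-- a divisor of degree zero with `L(D) ≠ 0` is principal. -/
theorem isPrincipal_of_degree_eq_zero_of_ne_bot {D : Divisor K F}
    (hdeg : Divisor.degree D = 0) (hne : riemannRochSpace D ≠ ⊥) : Divisor.IsPrincipal D := by
  obtain ⟨x, hx, hx0⟩ := Submodule.exists_mem_ne_zero_of_ne_bot hne
  obtain ⟨Dx, hDx, hdx⟩ := HasPrincipalDivisors.exists_divisor (K := K) x hx0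
  have hnonneg : 0 ≤ Dx + D := by
    rw [Finsupp.le_def]
    intro v
    have := (mem_riemannRochSpace_iff.mp hx v).resolve_left hx0
    rw [Finsupp.add_apply, hDx v]
    simp only [Finsupp.coe_zero, Pi.zero_apply]
    omega
  have hzero : Dx + D = 0 :=
    Fermat.Agent.GJ.S37MinDiv.eq_zero_of_nonneg_of_degree_eq_zero hnonneg
      (by rw [map_add, hdx, hdeg, add_zero])
  refine ⟨x⁻¹, inv_ne_zero hx0, fun v => ?_⟩
  have := DFunLike.congr_fun hzero v
  rw [Finsupp.add_apply, hDx v] at this
  rw [v.ord_inv]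
  simp only [Finsupp.coe_zero, Pi.zero_apply] at this
  omega

/-- `ℓ(D) = 0` for a non-principal divisor of degree zero. -/
theorem finrank_eq_zero_of_degree_eq_zero {D : Divisor K F} (hdeg : Divisor.degree D = 0)
    (hD : ¬ Divisor.IsPrincipal D) : Module.finrank K (riemannRochSpace D) = 0 := by
  have : riemannRochSpace D = ⊥ := by
    by_contra hne
    exact hD (isPrincipal_of_degree_eq_zero_of_ne_bot hdeg hne)
  rw [this, finrank_bot]

open Classical in
/-- `ℓ(D)` for a divisor of degree zero. -/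
theorem finrank_of_degree_eq_zero
    (h0 : Module.finrank K (riemannRochSpace (0 : Divisor K F)) = 1) {D : Divisor K F}
    (hdeg : Divisor.degree D = 0) :
    Module.finrank K (riemannRochSpace D) = if Divisor.IsPrincipal D then 1 else 0 := by
  split_ifs with h
  · exact finrank_eq_one_of_isPrincipal h0 h
  · exact finrank_eq_zero_of_degree_eq_zero hdeg h

open Classical in
/-- `ℓ(D) = g - 1 + [D ∼ W]` for `deg D = 2g - 2`. -/
theorem finrank_of_degree_eq {W : Divisor K F}
    (h0 : Module.finrank K (riemannRochSpace (0 : Divisor K F)) = 1) (hW : IsCanonical W)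
    {D : Divisor K F} (hdeg : Divisor.degree D = 2 * (genusFF K F : ℤ) - 2) :
    (Module.finrank K (riemannRochSpace D) : ℤ) =
      genusFF K F - 1 + (if Divisor.IsPrincipal (W - D) then 1 else 0) := by
  have h := riemann_roch h0 hW D
  have hz : Divisor.degree (W - D) = 0 := by
    rw [map_sub, degree_canonical h0 hW, hdeg, sub_self]
  rw [finrank_of_degree_eq_zero h0 hz, hdeg] at h
  rw [h]
  push_cast
  ring

end DegreeZero

/-! ### the bridge to a genus given by Riemann's theorem -/

/-- if Riemann's theorem holds with the integer `g` (and `ℓ(0) = 1`), then `g = genusFF K F`. -/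
theorem genusFF_eq_of_riemann (h0 : Module.finrank K (riemannRochSpace (0 : Divisor K F)) = 1)
    {g c : ℤ} (hg : ∀ E : Divisor K F, c ≤ Divisor.degree E →
      (Module.finrank K (riemannRochSpace E) : ℤ) = Divisor.degree E + 1 - g) :
    (genusFF K F : ℤ) = g := by
  obtain ⟨c', hc'⟩ := exists_ell_eq K F
  obtain ⟨P⟩ := ‹Nonempty (Place K F)›
  have hPdeg : (1 : ℤ) ≤ P.deg := by exact_mod_cast deg_pos P
  obtain ⟨D, hD⟩ : ∃ D : Divisor K F, D = Finsupp.single P (|c| + |c'|) := ⟨_, rfl⟩
  have hdeg : Divisor.degree D = (|c| + |c'|) * P.deg := by rw [hD, Divisor.degree_single]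
  have h1 := abs_nonneg c
  have h2 := abs_nonneg c'
  have h3 := le_abs_self c
  have h4 := le_abs_self c'
  have hge : |c| + |c'| ≤ Divisor.degree D := by rw [hdeg]; nlinarith
  have e1 := hg D (by linarith)
  have e2 := (hc' D (by linarith)).1
  rw [h0] at e2
  push_cast at e2
  linarith

end Fermat.Agent.GJ27.RRDual
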