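/-
GATE-J27 (S27) / node A3, second seat (helper43): the COROLLARIES of Riemann–Roch duality, in
hypothesis form.

Frame: `K`, `F` fields, `F` a `K`-algebra, prelude `Place` / `Divisor` / `riemannRochSpace` / `H1` /
`genusFF`, with `[FiniteResidues K F] [HasPrincipalDivisors K F] [Nonempty (Place K F)]`
(the frame of `RR/Final`).  The ONE binder is the duality statement

  `IsCanonical W : ∀ D, finrank K (H1 D) = finrank K (riemannRochSpace (W - D))`

(= the planned export `exists_canonical` of `GJ27/RRDual`, helper90).  From it and `RR/Final`: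

* `riemann_roch`            : `ℓ(D) - ℓ(W - D) = deg D + ℓ(0) - g`;
* `finrank_canonical`       : `ℓ(W) = g`;
* `degree_canonical`        : `deg W = 2 g - 2 ℓ(0)` (`= 2 g - 2` when `ℓ(0) = 1`);
* `ell_eq_of_le_degree`     : `2 g - 1 ≤ deg D → ℓ(D) = deg D + 1 - g` and `H1 D` is trivial;
* `ell_degree_zero`         : `deg E = 0 → ℓ(E) = if E principal then 1 else 0`;
* `ell_top`                 : `deg D = 2 g - 2 → ℓ(D) = g - 1 + (if W - D principal then 1 else 0)`;
* `ell_eq_of_sub_mem_principal` : `ℓ` only depends on the divisor class.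
-/
import Fermat.Agent.RR.Final
import Fermat.Agent.GJ.S37.MinDiv

set_option autoImplicit false

open AlgebraicCurve

namespace Fermat.Agent.GJ27.RRDual.Cor43

open Fermat.Agent.RRh45 Fermat.Agent.RR

variable {K F : Type*} [Field K] [Field F] [Algebra K F]

/-- **The duality binder**: `W` is a canonical divisor, `h¹(D) = ℓ(W - D)` for every `D`. -/
def IsCanonical (W : Divisor K F) : Prop :=
  ∀ D : Divisor K F,
    Module.finrank K (H1 D) = Module.finrank K (riemannRochSpace (W - D))

/-! ### `ℓ` only depends on the class -/

/-- `ℓ(D') = ℓ(D)` when `D' - D` is principal. -/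
theorem ell_eq_of_sub_mem_principal {D D' : Divisor K F}
    (h : D' - D ∈ Divisor.principal (K := K) (F := F)) :
    Module.finrank K (riemannRochSpace D') = Module.finrank K (riemannRochSpace D) := by
  obtain ⟨z, hz, hE⟩ := Divisor.mem_principal.mp h
  have := ell_add_div (K := K) (D := D) (E := D' - D) hz hE
  rwa [add_sub_cancel] at this

/-- `ℓ(E) = ℓ(0)` for a principal divisor `E`. -/
theorem ell_eq_of_mem_principal {E : Divisor K F}
    (h : E ∈ Divisor.principal (K := K) (F := F)) :
    Module.finrank K (riemannRochSpace E) =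
      Module.finrank K (riemannRochSpace (0 : Divisor K F)) :=
  ell_eq_of_sub_mem_principal (by rwa [sub_zero])

section Frame

variable [FiniteResidues K F] [HasPrincipalDivisors K F] [Nonempty (Place K F)]

omit [Nonempty (Place K F)] in
/-- A divisor of degree zero with `L(E) ≠ 0` is principal. -/
theorem mem_principal_of_degree_eq_zero_of_ne_bot {E : Divisor K F}
    (hE : Divisor.degree E = 0) (hne : riemannRochSpace E ≠ ⊥) :
    E ∈ Divisor.principal (K := K) (F := F) := by
  obtain ⟨f, hf, hf0⟩ := Submodule.exists_mem_ne_zero_of_ne_bot hne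
  obtain ⟨G, hG, hG0⟩ := HasPrincipalDivisors.exists_divisor (K := K) f hf0
  have hnn : 0 ≤ G + E := by
    rw [Finsupp.le_def]
    intro w
    rcases (mem_riemannRochSpace_iff.mp hf) w with h | h
    · exact absurd h hf0
    · simp only [Finsupp.coe_zero, Pi.zero_apply, Finsupp.coe_add, Pi.add_apply, hG w]
      omega
  have hdeg : Divisor.degree (G + E) = 0 := by rw [map_add, hG0, hE, add_zero]
  have hzero := Fermat.Agent.GJ.S37MinDiv.eq_zero_of_nonneg_of_degree_eq_zero hnn hdeg
  have hEG : E = -G := by
    rw [eq_neg_iff_add_eq_zero, add_comm]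
    exact hzero
  rw [hEG]
  exact (Divisor.principal (K := K) (F := F)).neg_mem (Divisor.mem_principal.mpr ⟨f, hf0, hG⟩)

omit [Nonempty (Place K F)] in
/-- **Degree zero**: `ℓ(E) = 1` if `E` is principal and `0` otherwise (given `ℓ(0) = 1`). -/
theorem ell_degree_zero [DecidablePred (· ∈ Divisor.principal (K := K) (F := F))]
    (h0 : Module.finrank K (riemannRochSpace (0 : Divisor K F)) = 1)
    {E : Divisor K F} (hE : Divisor.degree E = 0) :
    Module.finrank K (riemannRochSpace E) =
      if E ∈ Divisor.principal (K := K) (F := F) then 1 else 0 := by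
  split_ifs with h
  · rw [ell_eq_of_mem_principal h, h0]
  · have : riemannRochSpace E = ⊥ := by
      by_contra hne
      exact h (mem_principal_of_degree_eq_zero_of_ne_bot hE hne)
    rw [this]
    exact finrank_bot K F

/-! ### Consequences of the duality binder -/

variable {W : Divisor K F}

/-- **Riemann–Roch**: `ℓ(D) - ℓ(W - D) = deg D + ℓ(0) - g`. -/
theorem riemann_roch (hW : IsCanonical W) (D : Divisor K F) :
    (Module.finrank K (riemannRochSpace D) : ℤ) -
        Module.finrank K (riemannRochSpace (W - D)) =
      Divisor.degree D + Module.finrank K (riemannRochSpace (0 : Divisor K F)) - genusFF K F := by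
  have := ell_sub_h1 (K := K) (F := F) D
  rwa [hW D] at this

/-- `ℓ(W) = g`. -/
theorem finrank_canonical (hW : IsCanonical W) :
    Module.finrank K (riemannRochSpace W) = genusFF K F := by
  have := riemann_roch hW (0 : Divisor K F)
  rw [sub_zero, map_zero] at this
  have h : (Module.finrank K (riemannRochSpace W) : ℤ) = genusFF K F := by linarith
  exact_mod_cast h

/-- `deg W = 2 g - 2 ℓ(0)`. -/
theorem degree_canonical' (hW : IsCanonical W) :
    Divisor.degree W =
      2 * (genusFF K F : ℤ) - 2 * Module.finrank K (riemannRochSpace (0 : Divisor K F)) := by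
  have := riemann_roch hW W
  rw [sub_self, finrank_canonical hW] at this
  linarith

/-- `deg W = 2 g - 2` (given `ℓ(0) = 1`). -/
theorem degree_canonical (hW : IsCanonical W)
    (h0 : Module.finrank K (riemannRochSpace (0 : Divisor K F)) = 1) :
    Divisor.degree W = 2 * (genusFF K F : ℤ) - 2 := by
  rw [degree_canonical' hW, h0]
  norm_num

/-- **Riemann–Roch** with `ℓ(0) = 1`: `ℓ(D) - ℓ(W - D) = deg D + 1 - g`. -/
theorem riemann_roch_one (hW : IsCanonical W)
    (h0 : Module.finrank K (riemannRochSpace (0 : Divisor K F)) = 1) (D : Divisor K F) :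
    (Module.finrank K (riemannRochSpace D) : ℤ) -
        Module.finrank K (riemannRochSpace (W - D)) =
      Divisor.degree D + 1 - genusFF K F := by
  have := riemann_roch hW D
  rw [h0] at this
  exact_mod_cast this

/-- **The stable range**: for `deg D ≥ 2 g - 1`, `ℓ(W - D) = 0`. -/
theorem ell_canonical_sub_eq_zero (hW : IsCanonical W)
    (h0 : Module.finrank K (riemannRochSpace (0 : Divisor K F)) = 1) {D : Divisor K F}
    (hD : 2 * (genusFF K F : ℤ) - 1 ≤ Divisor.degree D) :
    Module.finrank K (riemannRochSpace (W - D)) = 0 := by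
  have hneg : Divisor.degree (W - D) < 0 := by
    rw [map_sub, degree_canonical hW h0]
    linarith
  rw [riemannRochSpace_eq_bot_of_degree_neg hneg]
  exact finrank_bot K F

/-- **The stable range**: for `deg D ≥ 2 g - 1`, `ℓ(D) = deg D + 1 - g`. -/
theorem ell_eq_of_le_degree (hW : IsCanonical W)
    (h0 : Module.finrank K (riemannRochSpace (0 : Divisor K F)) = 1) {D : Divisor K F}
    (hD : 2 * (genusFF K F : ℤ) - 1 ≤ Divisor.degree D) :
    (Module.finrank K (riemannRochSpace D) : ℤ) = Divisor.degree D + 1 - genusFF K F := by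
  have := riemann_roch_one hW h0 D
  rw [ell_canonical_sub_eq_zero hW h0 hD] at this
  simpa using this

/-- **The stable range**: for `deg D ≥ 2 g - 1`, `H1 D = 0`. -/
theorem subsingleton_H1_of_le_degree (hW : IsCanonical W)
    (h0 : Module.finrank K (riemannRochSpace (0 : Divisor K F)) = 1) {D : Divisor K F}
    (hD : 2 * (genusFF K F : ℤ) - 1 ≤ Divisor.degree D) :
    Subsingleton (H1 D) := by
  have h := hW D
  rw [ell_canonical_sub_eq_zero hW h0 hD] at h
  exact Module.finrank_zero_iff.mp h

/-- **Degree `2 g - 2`**: `ℓ(D) = g - 1 + (1 if D ~ W else 0)`; exactly one class of degree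
`2 g - 2` (the canonical class) has `ℓ = g`, all the others have `ℓ = g - 1`. -/
theorem ell_top [DecidablePred (· ∈ Divisor.principal (K := K) (F := F))]
    (hW : IsCanonical W)
    (h0 : Module.finrank K (riemannRochSpace (0 : Divisor K F)) = 1) {D : Divisor K F}
    (hD : Divisor.degree D = 2 * (genusFF K F : ℤ) - 2) :
    (Module.finrank K (riemannRochSpace D) : ℤ) =
      (genusFF K F : ℤ) - 1 +
        (if W - D ∈ Divisor.principal (K := K) (F := F) then 1 else 0) := by
  have hdeg : Divisor.degree (W - D) = 0 := by
    rw [map_sub, degree_canonical hW h0, hD, sub_self]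
  have h1 := riemann_roch_one hW h0 D
  rw [ell_degree_zero h0 hdeg, hD] at h1
  split_ifs at h1 ⊢ with h
  · push_cast at h1 ⊢; linarith
  · push_cast at h1 ⊢; linarith

/-- `ℓ(D) = g` for `D` in the canonical class. -/
theorem ell_of_canonical_class (hW : IsCanonical W) {D : Divisor K F}
    (h : W - D ∈ Divisor.principal (K := K) (F := F)) :
    Module.finrank K (riemannRochSpace D) = genusFF K F := by
  rw [← finrank_canonical hW]
  exact (ell_eq_of_sub_mem_principal h).symm

/-- `ℓ(D) = g - 1` for `D` of degree `2 g - 2` outside the canonical class. -/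
theorem ell_of_not_canonical_class (hW : IsCanonical W)
    (h0 : Module.finrank K (riemannRochSpace (0 : Divisor K F)) = 1) {D : Divisor K F}
    (hD : Divisor.degree D = 2 * (genusFF K F : ℤ) - 2)
    (h : W - D ∉ Divisor.principal (K := K) (F := F)) :
    (Module.finrank K (riemannRochSpace D) : ℤ) = (genusFF K F : ℤ) - 1 := by
  classical
  have := ell_top hW h0 hD
  rwa [if_neg h, add_zero] at this

/-- the genus is positive as soon as some divisor of degree `2 g - 2` exists with ... (helper for
consumers): `g = 0 → deg W = -2`. -/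
theorem genus_pos_of_degree_canonical_nonneg (hW : IsCanonical W)
    (h0 : Module.finrank K (riemannRochSpace (0 : Divisor K F)) = 1)
    (h : 0 ≤ Divisor.degree W) : 0 < genusFF K F := by
  have := degree_canonical hW h0
  have h2 : (0 : ℤ) < genusFF K F := by linarith
  exact_mod_cast h2

end Frame

end Fermat.Agent.GJ27.RRDual.Cor43
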