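/-
GATE-J27 (S27) / node A3 = GJ27-RRDUAL, file 5 (helper90): **the canonical class is invariant**
under every map of divisors that preserves the degree and `ℓ` of the canonical divisor
(request (R-top) of helper47, board 5741), in the frame of `GJ27/RRDual/Duality.lean`.

* `isPrincipal_sub_of_isCanonical`   : `IsCanonical W`, `deg W' = deg W`, `ℓ(W') = ℓ(W)` ⟹
                                       `W - W'` is principal  (any divisor `W'`);
* `isPrincipal_sub_of_isCanonical'`  : the same with `W' - W`;
* `mem_principal_sub_of_isCanonical` : the same in the spelling `W' - W ∈ Divisor.principal`;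
* `IsCanonical.of_sub_isPrincipal`   : a divisor linearly equivalent to a canonical one is
                                       canonical (`ℓ` only depends on the class);
* `isCanonical_of_degree_of_finrank` : `deg W' = deg W`, `ℓ(W') = ℓ(W)` ⟹ `W'` is canonical;
* `smul_sub_mem_principal`           : for `g : SemilinearAut K F`:
                                       `g • W - W ∈ Divisor.principal`;
* `isCanonical_smul`                 : `g • W` is canonical.
-/
import Mathlib
import Fermat.Agent.GJ27.RRDual.Duality
import Fermat.Agent.GH.Gal.ChartTransport

set_option autoImplicit false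

noncomputable section

open AlgebraicCurve

namespace Fermat.Agent.GJ27.RRDual

open Fermat.Agent.RRh45 Fermat.Agent.RR

variable {K F : Type*} [Field K] [Field F] [Algebra K F]
variable [FiniteResidues K F] [HasPrincipalDivisors K F] [Nonempty (Place K F)]

variable {W W' : Divisor K F}

/-- a divisor with the degree and the `ℓ` of a canonical divisor is linearly equivalent to it. -/
theorem isPrincipal_sub_of_isCanonical
    (h0 : Module.finrank K (riemannRochSpace (0 : Divisor K F)) = 1) (hW : IsCanonical W)
    (hdeg : Divisor.degree W' = Divisor.degree W)
    (hfin : Module.finrank K (riemannRochSpace W') = Module.finrank K (riemannRochSpace W)) :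
    Divisor.IsPrincipal (W - W') := by
  classical
  have hd : Divisor.degree W' = 2 * (genusFF K F : ℤ) - 2 := by
    rw [hdeg, degree_canonical h0 hW]
  have h := finrank_of_degree_eq h0 hW hd
  rw [hfin, finrank_canonical hW] at h
  by_contra hnot
  rw [if_neg hnot] at h
  linarith

/-- the same with the difference in the other order. -/
theorem isPrincipal_sub_of_isCanonical'
    (h0 : Module.finrank K (riemannRochSpace (0 : Divisor K F)) = 1) (hW : IsCanonical W)
    (hdeg : Divisor.degree W' = Divisor.degree W)
    (hfin : Module.finrank K (riemannRochSpace W') = Module.finrank K (riemannRochSpace W)) :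
    Divisor.IsPrincipal (W' - W) := by
  have h := (Divisor.principal (K := K) (F := F)).neg_mem
    (Divisor.mem_principal.mpr (isPrincipal_sub_of_isCanonical h0 hW hdeg hfin))
  rw [neg_sub] at h
  exact Divisor.mem_principal.mp h

/-- the same in the spelling of the subgroup of principal divisors. -/
theorem mem_principal_sub_of_isCanonical
    (h0 : Module.finrank K (riemannRochSpace (0 : Divisor K F)) = 1) (hW : IsCanonical W)
    (hdeg : Divisor.degree W' = Divisor.degree W)
    (hfin : Module.finrank K (riemannRochSpace W') = Module.finrank K (riemannRochSpace W)) :
    W' - W ∈ Divisor.principal (K := K) (F := F) :=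
  Divisor.mem_principal.mpr (isPrincipal_sub_of_isCanonical' h0 hW hdeg hfin)

/-- `ℓ` only depends on the class of the divisor. -/
theorem finrank_eq_of_sub_isPrincipal {D D' : Divisor K F} (h : Divisor.IsPrincipal (D' - D)) :
    Module.finrank K (riemannRochSpace D') = Module.finrank K (riemannRochSpace D) := by
  obtain ⟨z, hz, hDz⟩ := h
  have h1 := ell_add_div (K := K) (D := D) hz hDz
  rw [add_sub_cancel] at h1
  exact h1

/-- a divisor linearly equivalent to a canonical divisor is canonical. -/
theorem IsCanonical.of_sub_isPrincipal (hW : IsCanonical W)
    (h : Divisor.IsPrincipal (W' - W)) : IsCanonical W' := by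
  intro D
  rw [hW D]
  refine (finrank_eq_of_sub_isPrincipal ?_).symm
  have : W' - D - (W - D) = W' - W := by abel
  rw [this]
  exact h

/-- a divisor with the degree and the `ℓ` of a canonical divisor is canonical. -/
theorem isCanonical_of_degree_of_finrank
    (h0 : Module.finrank K (riemannRochSpace (0 : Divisor K F)) = 1) (hW : IsCanonical W)
    (hdeg : Divisor.degree W' = Divisor.degree W)
    (hfin : Module.finrank K (riemannRochSpace W') = Module.finrank K (riemannRochSpace W)) :
    IsCanonical W' :=
  hW.of_sub_isPrincipal (isPrincipal_sub_of_isCanonical' h0 hW hdeg hfin)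

/-- **the canonical class is fixed by every semilinear automorphism.** -/
theorem smul_sub_mem_principal
    (h0 : Module.finrank K (riemannRochSpace (0 : Divisor K F)) = 1) (hW : IsCanonical W)
    (g : SemilinearAut K F) : g • W - W ∈ Divisor.principal (K := K) (F := F) :=
  mem_principal_sub_of_isCanonical h0 hW (SemilinearAut.degree_smul g W)
    (Fermat.Agent.GH.Gal.finrank_riemannRochSpace_smul g W)

/-- the translate of a canonical divisor by a semilinear automorphism is canonical. -/
theorem isCanonical_smul
    (h0 : Module.finrank K (riemannRochSpace (0 : Divisor K F)) = 1) (hW : IsCanonical W)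
    (g : SemilinearAut K F) : IsCanonical (g • W) :=
  isCanonical_of_degree_of_finrank h0 hW (SemilinearAut.degree_smul g W)
    (Fermat.Agent.GH.Gal.finrank_riemannRochSpace_smul g W)

end Fermat.Agent.GJ27.RRDual
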